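/-
S43lib / B1x / Devissage (helper1, brick (D) for helper3's B1).

A natural transformation `T : NatF S S' 𝒪 𝔪 𝔪'` between the localised cohomology functors of two
Hecke systems which is bijective on the residue field (trivial action) is bijective
* (D1) `NatF.bijective_of_finite`      : on every finite coefficient module (dévissage);
* (D2) `NatF.bijective_of_torsionFree` : on every finitely generated `ϖ`-torsion free coefficient
  module (passage to the limit: Krull + Nakayama).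
-/
import Mathlib
import Fermat.Agent.S43lib.B1.TWNat

set_option autoImplicit false
set_option linter.style.haveILetI false
set_option linter.unusedSectionVars false
set_option linter.unusedVariables false

noncomputable section

namespace Fermat.Agent.S43lib.B1

open MvPolynomial IsLocalRing Fermat.Agent.S41lib.HC

/-- The "five lemma" step: a map of short exact sequences of additive groups, bijective on the two
ends, is bijective in the middle. -/
theorem bijective_of_exact_rows {A B C A' B' C' : Type*} [AddCommGroup A] [AddCommGroup B]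
    [AddCommGroup C] [AddCommGroup A'] [AddCommGroup B'] [AddCommGroup C']
    (f : A →+ B) (g : B →+ C) (f' : A' →+ B') (g' : B' →+ C')
    (a : A →+ A') (b : B →+ B') (c : C →+ C')
    (hsq1 : ∀ x, b (f x) = f' (a x)) (hsq2 : ∀ y, c (g y) = g' (b y))
    (hex : ∀ y, g y = 0 → ∃ x, f x = y) (hg : Function.Surjective g)
    (hf' : Function.Injective f') (hex' : ∀ y, g' y = 0 → ∃ x, f' x = y)
    (hgf' : ∀ x, g' (f' x) = 0)
    (ha : Function.Bijective a) (hc : Function.Bijective c) : Function.Bijective b := by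
  constructor
  · rw [injective_iff_map_eq_zero]
    intro y hy
    have h1 : c (g y) = 0 := by rw [hsq2, hy, map_zero]
    have h2 : g y = 0 := hc.1 (by rw [h1, map_zero])
    obtain ⟨x, rfl⟩ := hex y h2
    have h3 : f' (a x) = 0 := by rw [← hsq1, hy]
    have h4 : a x = 0 := hf' (by rw [h3, map_zero])
    have h5 : x = 0 := ha.1 (by rw [h4, map_zero])
    rw [h5, map_zero]
  · intro y'
    obtain ⟨z'', hz''⟩ := hc.2 (g' y')
    obtain ⟨z, rfl⟩ := hg z''
    have h1 : g' (y' - b z) = 0 := by rw [map_sub, ← hsq2, hz'', sub_self]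
    obtain ⟨x', hx'⟩ := hex' _ h1
    obtain ⟨x, rfl⟩ := ha.2 x'
    refine ⟨z + f x, ?_⟩
    rw [map_add, hsq1, hx', add_sub_cancel]

namespace NatF

variable {Γ Γ' G : Type} [Group Γ] [Group Γ'] [CommGroup G] {I : Type}
  {S : HeckeSys Γ G I} {S' : HeckeSys Γ' G I}
  {𝒪 : Type} [CommRing 𝒪] [IsLocalRing 𝒪] [IsNoetherianRing 𝒪]
  [IsAdicComplete (maximalIdeal 𝒪) 𝒪] [Finite (ResidueField 𝒪)]
  {𝔪 𝔪' : Ideal (MvPolynomial I 𝒪)} [𝔪.IsMaximal] [𝔪'.IsMaximal]
  [Group.FG Γ] [Group.FG Γ'] {p : ℕ} [Fact p.Prime]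

/-- The step of the dévissage: exact rows for a short exact sequence of coefficient modules. -/
theorem bijective_of_exact (T : NatF S S' 𝒪 𝔪 𝔪') (hS : S.RightExact 𝒪)
    (hne : S.NonEis 𝔪) (hne' : S'.NonEis 𝔪')
    {W' W W'' : Type} [AddCommGroup W'] [Module 𝒪 W'] [DistribMulAction G W']
    [SMulCommClass G 𝒪 W'] [Module.Finite 𝒪 W'] [AddCommGroup W] [Module 𝒪 W]
    [DistribMulAction G W] [SMulCommClass G 𝒪 W] [Module.Finite 𝒪 W] [AddCommGroup W'']
    [Module 𝒪 W''] [DistribMulAction G W''] [SMulCommClass G 𝒪 W''] [Module.Finite 𝒪 W'']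
    {u : W' →ₗ[𝒪] W} (hu : IsEquivar G u) {v : W →ₗ[𝒪] W''} (hv : IsEquivar G v)
    (hinj : Function.Injective u) (hsurj : Function.Surjective v)
    (hex : ∀ w, v w = 0 ↔ ∃ w', u w' = w)
    (h' : Function.Bijective (T.Φ W')) (h'' : Function.Bijective (T.Φ W'')) :
    Function.Bijective (T.Φ W) := by
  have hE := S.Fmap_exact 𝔪 hu hv hinj hsurj hex
  have hE' := S'.Fmap_exact 𝔪' hu hv hinj hsurj hex
  refine bijective_of_exact_rows (S.Fmap 𝔪 u hu).toAddMonoidHom (S.Fmap 𝔪 v hv).toAddMonoidHom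
    (S'.Fmap 𝔪' u hu).toAddMonoidHom (S'.Fmap 𝔪' v hv).toAddMonoidHom (T.Φ W') (T.Φ W) (T.Φ W'')
    (fun x => T.nat W' W u hu x) (fun y => T.nat W W'' v hv y) ?_
    (S.Fmap_surjective 𝔪 hS hv hsurj) (S'.Fmap_injective hne' hu hinj) ?_ ?_ h' h''
  · intro y hy
    exact (hE y).mp hy
  · intro y hy
    exact (hE' y).mp hy
  · intro x
    exact (hE' _).mpr ⟨x, rfl⟩

/-- **(D1) dévissage**: bijective on the residue field ⟹ bijective on all finite modules. -/
theorem bijective_of_finite_aux (T : NatF S S' 𝒪 𝔪 𝔪') (hS : S.RightExact 𝒪)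
    (hne : S.NonEis 𝔪) (hne' : S'.NonEis 𝔪')
    (hG : IsPGroup p G) {ϖ : 𝒪} (hϖ : maximalIdeal 𝒪 = Ideal.span {ϖ})
    (hp𝒪 : (p : 𝒪) ∈ maximalIdeal 𝒪)
    [Module.Finite 𝒪 (TrivMod G (ResidueField 𝒪))]
    (h0 : Function.Bijective (T.Φ (TrivMod G (ResidueField 𝒪)))) :
    ∀ (N : ℕ) (W : Type) [AddCommGroup W] [Module 𝒪 W] [DistribMulAction G W]
      [SMulCommClass G 𝒪 W] [Module.Finite 𝒪 W] [Finite W], Nat.card W ≤ N →
      Function.Bijective (T.Φ W) := by
  intro N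
  induction N with
  | zero =>
    intro W _ _ _ _ _ _ hW
    exfalso
    have : 0 < Nat.card W := Nat.card_pos
    omega
  | succ N ih =>
    intro W _ _ _ _ _ _ hW
    by_cases hsub : Subsingleton W
    · haveI := S.F_subsingleton W 𝔪
      haveI := S'.F_subsingleton W 𝔪'
      exact ⟨fun a b _ => Subsingleton.elim a b, fun b => ⟨0, Subsingleton.elim _ _⟩⟩
    · haveI : Nontrivial W := not_subsingleton_iff_nontrivial.mp hsub
      obtain ⟨w₀, hw₀, hw0, hfix⟩ := HeckeSys.exists_socle_fixed hG hϖ hp𝒪 W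
      set u := HeckeSys.socleMap (G := G) hϖ w₀ hw0 with hu_def
      have hu : IsEquivar G u := HeckeSys.socleMap_equivar hϖ w₀ hw0 hfix
      have hinj : Function.Injective u := HeckeSys.socleMap_injective hϖ w₀ hw0 hw₀
      have hst : ∀ (g : G), ∀ w ∈ LinearMap.range u, g • w ∈ LinearMap.range u := by
        rintro g _ ⟨x, rfl⟩
        exact ⟨g • x, hu g x⟩
      let W'' := QuotG (LinearMap.range u) hst
      have hex : ∀ w, QuotG.mk (LinearMap.range u) hst w = 0 ↔ ∃ w', u w' = w := by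
        intro w
        rw [QuotG.mk_eq_zero_iff]
        rfl
      have hcardW : Nat.card W = Nat.card (ResidueField 𝒪) * Nat.card W'' := by
        have h1 := Submodule.card_eq_card_quotient_mul_card (LinearMap.range u)
        have h2 : Nat.card (LinearMap.range u) = Nat.card (ResidueField 𝒪) :=
          (Nat.card_congr (LinearEquiv.ofInjective u hinj).toEquiv).symm
        rw [h1, h2]
        rfl
      have hk2 : 2 ≤ Nat.card (ResidueField 𝒪) := by
        have : 1 < Nat.card (ResidueField 𝒪) := Finite.one_lt_card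
        omega
      have hpos'' : 0 < Nat.card W'' := Nat.card_pos
      have hlt : Nat.card W'' ≤ N := by
        have : Nat.card W'' < Nat.card W := by
          rw [hcardW]
          nlinarith
        omega
      haveI : Module.Finite 𝒪 W'' := Module.Finite.of_finite
      have h'' : Function.Bijective (T.Φ W'') := ih W'' hlt
      exact T.bijective_of_exact hS hne hne' hu (QuotG.isEquivar_mk (LinearMap.range u) hst) hinj
        (QuotG.mk_surjective _ _) hex h0 h''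

/-- **(D1) dévissage.** -/
theorem bijective_of_finite (T : NatF S S' 𝒪 𝔪 𝔪') (hS : S.RightExact 𝒪) (hS' : S'.RightExact 𝒪)
    (hne : S.NonEis 𝔪) (hne' : S'.NonEis 𝔪')
    (hG : IsPGroup p G) {ϖ : 𝒪} (hϖ : maximalIdeal 𝒪 = Ideal.span {ϖ})
    (hp𝒪 : (p : 𝒪) ∈ maximalIdeal 𝒪)
    [Module.Finite 𝒪 (TrivMod G (ResidueField 𝒪))]
    (h0 : Function.Bijective (T.Φ (TrivMod G (ResidueField 𝒪))))
    (W : Type) [AddCommGroup W] [Module 𝒪 W] [DistribMulAction G W] [SMulCommClass G 𝒪 W]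
    [Module.Finite 𝒪 W] [Finite W] : Function.Bijective (T.Φ W) :=
  T.bijective_of_finite_aux hS hne hne' hG hϖ hp𝒪 h0 (Nat.card W) W le_rfl

/-! ### (D2) passage to the limit -/

/-- A finitely generated module over a local ring with finite residue field which is killed by the
maximal ideal is finite. -/
theorem _root_.Fermat.Agent.S43lib.B1.finite_of_killed {𝒪 : Type*} [CommRing 𝒪] [IsLocalRing 𝒪]
    [Finite (ResidueField 𝒪)] (L : Type*) [AddCommGroup L] [Module 𝒪 L] [Module.Finite 𝒪 L]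
    (hL : ∀ c ∈ maximalIdeal 𝒪, ∀ y : L, c • y = 0) : Finite L := by
  have htors : Module.IsTorsionBySet 𝒪 L (maximalIdeal 𝒪 : Set 𝒪) := by
    intro y c
    exact hL c.1 c.2 y
  letI : Module (𝒪 ⧸ maximalIdeal 𝒪) L := htors.module
  haveI : IsScalarTower 𝒪 (𝒪 ⧸ maximalIdeal 𝒪) L := htors.isScalarTower
  haveI : Module.Finite (𝒪 ⧸ maximalIdeal 𝒪) L :=
    Module.Finite.of_restrictScalars_finite 𝒪 (𝒪 ⧸ maximalIdeal 𝒪) L
  haveI : Finite (𝒪 ⧸ maximalIdeal 𝒪) := inferInstanceAs (Finite (ResidueField 𝒪))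
  exact Module.finite_of_finite (𝒪 ⧸ maximalIdeal 𝒪)

/-- the components as `𝒪`-linear maps -/
def Φlin (T : NatF S S' 𝒪 𝔪 𝔪') (W : Type) [AddCommGroup W] [Module 𝒪 W]
    [DistribMulAction G W] [SMulCommClass G 𝒪 W] [Module.Finite 𝒪 W] :
    S.F 𝒪 W 𝔪 →ₗ[𝒪] S'.F 𝒪 W 𝔪' where
  toFun := T.Φ W
  map_add' := map_add _
  map_smul' a y := T.map_smul' W a y

theorem Φlin_apply (T : NatF S S' 𝒪 𝔪 𝔪') (W : Type) [AddCommGroup W] [Module 𝒪 W]
    [DistribMulAction G W] [SMulCommClass G 𝒪 W] [Module.Finite 𝒪 W] (y : S.F 𝒪 W 𝔪) :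
    T.Φlin W y = T.Φ W y := rfl

/-- **(D2) limit**: bijective on all finite modules ⟹ bijective on finitely generated `ϖ`-torsion
free modules. -/
theorem bijective_of_torsionFree (T : NatF S S' 𝒪 𝔪 𝔪') (hS : S.RightExact 𝒪)
    (hS' : S'.RightExact 𝒪) (hne : S.NonEis 𝔪) (hne' : S'.NonEis 𝔪')
    {ϖ : 𝒪} (hϖ : maximalIdeal 𝒪 = Ideal.span {ϖ})
    (hfin : ∀ (W : Type) [AddCommGroup W] [Module 𝒪 W] [DistribMulAction G W]
      [SMulCommClass G 𝒪 W] [Module.Finite 𝒪 W] [Finite W], Function.Bijective (T.Φ W))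
    (W : Type) [AddCommGroup W] [Module 𝒪 W] [DistribMulAction G W] [SMulCommClass G 𝒪 W]
    [Module.Finite 𝒪 W] (htf : ∀ w : W, ϖ • w = 0 → w = 0) : Function.Bijective (T.Φ W) := by
  have hϖm : ϖ ∈ maximalIdeal 𝒪 := by rw [hϖ]; exact Ideal.subset_span rfl
  -- multiplication by `ϖ`
  let mulϖ : W →ₗ[𝒪] W := ϖ • LinearMap.id
  have hmulϖ : IsEquivar G mulϖ := (HeckeSys.isEquivar_id (G := G) (R := 𝒪) (W := W)).smul ϖ
  have hmul_apply : ∀ w, mulϖ w = ϖ • w := fun w => rfl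
  have hinj : Function.Injective mulϖ := by
    rw [injective_iff_map_eq_zero]
    intro w hw
    exact htf w hw
  have hFmul : ∀ y : S.F 𝒪 W 𝔪, S.Fmap 𝔪 mulϖ hmulϖ y = ϖ • y := by
    intro y
    have h := S.Fmap_smul_apply 𝔪 (HeckeSys.isEquivar_id (G := G) (R := 𝒪) (W := W)) ϖ y
    rw [HeckeSys.Fmap_id] at h
    exact h
  have hF'mul : ∀ y : S'.F 𝒪 W 𝔪', S'.Fmap 𝔪' mulϖ hmulϖ y = ϖ • y := by
    intro y
    have h := S'.Fmap_smul_apply 𝔪' (HeckeSys.isEquivar_id (G := G) (R := 𝒪) (W := W)) ϖ y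
    rw [HeckeSys.Fmap_id] at h
    exact h
  -- the quotient `W / ϖ W`
  have hst : ∀ (g : G), ∀ w ∈ LinearMap.range mulϖ, g • w ∈ LinearMap.range mulϖ := by
    rintro g _ ⟨x, rfl⟩
    exact ⟨g • x, hmulϖ g x⟩
  let Wb := QuotG (LinearMap.range mulϖ) hst
  let v : W →ₗ[𝒪] Wb := QuotG.mk (LinearMap.range mulϖ) hst
  have hv : IsEquivar G v := QuotG.isEquivar_mk (LinearMap.range mulϖ) hst
  have hvsurj : Function.Surjective v := QuotG.mk_surjective _ _
  have hex : ∀ w, v w = 0 ↔ ∃ w', mulϖ w' = w := by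
    intro w
    show QuotG.mk (LinearMap.range mulϖ) hst w = 0 ↔ _
    rw [QuotG.mk_eq_zero_iff]
    rfl
  haveI : Module.Finite 𝒪 Wb := Module.Finite.of_surjective v hvsurj
  haveI : Finite Wb := by
    apply finite_of_killed (𝒪 := 𝒪) Wb
    intro c hc y
    obtain ⟨w, rfl⟩ := hvsurj y
    rw [hϖ, Ideal.mem_span_singleton] at hc
    obtain ⟨d, rfl⟩ := hc
    rw [← map_smul, (hex _).mpr ⟨d • w, by rw [hmul_apply, mul_smul]⟩]
  have hb : Function.Bijective (T.Φ Wb) := hfin Wb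
  have hE := S.Fmap_exact 𝔪 hmulϖ hv hinj hvsurj hex
  have hE' := S'.Fmap_exact 𝔪' hmulϖ hv hinj hvsurj hex
  have hϖinj' : ∀ y : S'.F 𝒪 W 𝔪', ϖ • y = 0 → y = 0 := by
    intro y hy
    have h1 := S'.Fmap_injective hne' hmulϖ hinj
    apply h1
    rw [hF'mul, hy, map_zero]
  have hjac : maximalIdeal 𝒪 ≤ Ideal.jacobson (⊥ : Ideal 𝒪) :=
    IsLocalRing.maximalIdeal_le_jacobson ⊥
  constructor
  · -- injectivity: the kernel `K` satisfies `K ≤ 𝔪_𝒪 • K`
    let K : Submodule 𝒪 (S.F 𝒪 W 𝔪) := LinearMap.ker (T.Φlin W)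
    have hK : K ≤ maximalIdeal 𝒪 • K := by
      intro y hy
      have hy0 : T.Φ W y = 0 := hy
      have h1 : T.Φ Wb (S.Fmap 𝔪 v hv y) = 0 := by
        rw [T.nat W Wb v hv y, hy0, map_zero]
      have h2 : S.Fmap 𝔪 v hv y = 0 := hb.1 (by rw [h1, map_zero])
      obtain ⟨y₁, hy₁⟩ := (hE y).mp h2
      rw [hFmul] at hy₁
      have h3 : T.Φ W y₁ = 0 := by
        apply hϖinj'
        rw [← T.map_smul', hy₁, hy0]
      rw [← hy₁]
      exact Submodule.smul_mem_smul hϖm h3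
    have hKfg : K.FG := by
      haveI : IsNoetherian 𝒪 (S.F 𝒪 W 𝔪) := isNoetherian_of_isNoetherianRing_of_finite 𝒪 _
      exact IsNoetherian.noetherian K
    have hK0 : K = ⊥ := Submodule.eq_bot_of_le_smul_of_le_jacobson_bot _ K hKfg hK hjac
    rw [injective_iff_map_eq_zero]
    intro y hy
    have : y ∈ K := hy
    rw [hK0, Submodule.mem_bot] at this
    exact this
  · -- surjectivity: Nakayama
    have htop : (⊤ : Submodule 𝒪 (S'.F 𝒪 W 𝔪')) ≤
        LinearMap.range (T.Φlin W) ⊔ maximalIdeal 𝒪 • (⊤ : Submodule 𝒪 (S'.F 𝒪 W 𝔪')) := by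
      intro y' _
      obtain ⟨zb, hzb⟩ := hb.2 (S'.Fmap 𝔪' v hv y')
      obtain ⟨z, rfl⟩ := S.Fmap_surjective 𝔪 hS hv hvsurj zb
      have h1 : S'.Fmap 𝔪' v hv (y' - T.Φ W z) = 0 := by
        rw [map_sub, ← T.nat W Wb v hv z, hzb, sub_self]
      obtain ⟨x', hx'⟩ := (hE' _).mp h1
      rw [hF'mul] at hx'
      have h2 : y' = T.Φ W z + ϖ • x' := by rw [hx']; abel
      rw [h2]
      exact Submodule.add_mem_sup ⟨z, rfl⟩ (Submodule.smul_mem_smul hϖm Submodule.mem_top)
    have hfg : (⊤ : Submodule 𝒪 (S'.F 𝒪 W 𝔪')).FG := Module.Finite.fg_top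
    have hle := Submodule.le_of_le_smul_of_le_jacobson_bot hfg hjac htop
    intro y'
    obtain ⟨z, hz⟩ := hle (Submodule.mem_top (x := y'))
    exact ⟨z, hz⟩

end NatF

end Fermat.Agent.S43lib.B1
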