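/-
S43lib / B1x / ClassY  (helper1, brick (G) CLASS-Y for helper5's partial twist).

**From an eigenclass in `H¹(Γ₀(N₁ T), W)` (helper3's `B1` vocabulary) to an eigen-homomorphism on
`Γ_Y = GammaSY N₁ T Y`.**  Line-by-line adaptation of helper5's `B2/Bridge/ToB1.lean`
(`resSS → resSY`, `GammaSS → GammaSY N₁ T Y`, `unitsOne → unitsY N₁ T Y`, `IsEigen → IsEigenY`,
`ssSub → sySub`).

`W` is a `K`-vector space on which `G` acts through the character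
`ψ₁(u mod T) · ψ_N(u mod N₁)` of `(ℤ/N₁T)ˣ` (`ActsThroughY`), `Y ≤ (ℤ/N₁T)ˣ` consists of units `≡ 1 (T)`
on whose reductions modulo `N₁` the character `ψ_N` is trivial.  Then `Γ_Y` acts trivially on `W` and

* `resSY`                         : `Z¹(Γ₀(N₁T), W) → Hom(Γ_Y, W)`, the restriction;
* `resSY_isEigenY`                : the restriction is an eigenvector for the conjugation by `Γ₀(N₁T)`;
* `resSY_heckeZ`                  : it commutes with `T_ℓ` (`ℓ ∤ N₁T²`);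
* `mk_eq_zero_of_resSY_eq_zero`   : it is injective on `H¹` (characteristic zero);
* **`exists_eigenhom_of_eigenclass`** : a nonzero class `c` gives a nonzero `φ ∈ Hom(Γ_Y, W)`,
  `IsEigenY`, with `T_ℓ φ = a φ` whenever `T_ℓ c = a c`.
-/
import Mathlib
import Fermat.Agent.S43lib.B2.Tw.InjY
import Fermat.Agent.S43lib.B2.Bridge.ToB1

set_option autoImplicit false
set_option linter.unusedSectionVars false

noncomputable section

namespace Fermat.Agent.S43lib.B2.Tw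

open CongruenceSubgroup Matrix.SpecialLinearGroup ModularForm ModularCurve.Period
open Fermat.Agent.S41lib.HC Fermat.Agent.S16lib.LH Fermat.Agent.S29lib.H
open Fermat.Agent.S43lib.B2.Bridge
open scoped MatrixGroups

variable {N₁ T : ℕ} [NeZero (N₁ * T)] {Y : Subgroup (ZMod (N₁ * T))ˣ}
variable {G : Type*} [Group G] (χ : (ZMod (N₁ * T))ˣ →* G)
variable (K : Type*) [Field K] (W : Type*) [AddCommGroup W] [Module K W] [DistribMulAction G W]
  [SMulCommClass G K W]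

/-- the action of `G` on `W` is through the character `ψ₁(u mod T) · ψ_N(u mod N₁)` of `(ℤ/N₁T)ˣ` -/
def ActsThroughY (ψ₁ : (ZMod T)ˣ →* Kˣ) (ψN : (ZMod N₁)ˣ →* Kˣ) : Prop :=
  ∀ (u : (ZMod (N₁ * T))ˣ) (w : W), χ u • w =
    ((ψ₁ (ZMod.unitsMap (dvd_T_NT N₁ T) u) * ψN (ZMod.unitsMap (dvd_mul_right N₁ T) u) : Kˣ) : K) • w

variable {χ K W}
variable {ψ₁ : (ZMod T)ˣ →* Kˣ} {ψN : (ZMod N₁)ˣ →* Kˣ}

theorem levelPi_smulY (hW : ActsThroughY χ K W ψ₁ ψN) (b : ↥(Gamma0 (N₁ * T))) (w : W) :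
    B1.levelPi χ b • w = ((ψ₁ (dTu b) * ψN (dNu b) : Kˣ) : K) • w := by
  rw [B1.levelPi_apply, hW, unitHom_eq_dUnit]
  rfl

theorem levelPi_smul_of_memY (hW : ActsThroughY χ K W ψ₁ ψN) (hY : Y ≤ unitsOneNT N₁ T)
    (hψY : ∀ y ∈ Y, ψN (ZMod.unitsMap (dvd_mul_right N₁ T) y) = 1)
    (γ : ↥(GammaSY N₁ T Y)) (w : W) :
    B1.levelPi χ (Subgroup.inclusion GammaSY_le_Gamma0' γ) • w = w := by
  have hmem : ((Subgroup.inclusion (GammaSY_le_Gamma0' (N₁ := N₁) (T := T) (Y := Y)) γ :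
      ↥(Gamma0 (N₁ * T))) : SL(2, ℤ)) ∈ GammaSY N₁ T Y := γ.2
  obtain ⟨y, hy, hyb⟩ := dNu_of_mem_GammaSY _ hmem
  rw [levelPi_smulY hW, dTu_of_mem_GammaSY hY _ hmem, map_one, hyb, hψY y hy, mul_one,
    Units.val_one, one_smul]

/-! ### Restriction of crossed homomorphisms to `Γ_Y` -/

/-- `f ↦ f|Γ_Y`, a homomorphism since `Γ_Y` acts trivially on `W` -/
def resSY (hW : ActsThroughY χ K W ψ₁ ψN) (hY : Y ≤ unitsOneNT N₁ T)
    (hψY : ∀ y ∈ Y, ψN (ZMod.unitsMap (dvd_mul_right N₁ T) y) = 1) :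
    ↥(B1.Z1 (B1.levelPi χ) K W) →ₗ[K] H (GammaSY N₁ T Y) W where
  toFun f := AddMonoidHom.mk'
    (fun a => (f : ↥(Gamma0 (N₁ * T)) → W)
      (Subgroup.inclusion GammaSY_le_Gamma0' (Additive.toMul a))) (by
    intro a b
    show (f : ↥(Gamma0 (N₁ * T)) → W) (Subgroup.inclusion GammaSY_le_Gamma0'
      (Additive.toMul a * Additive.toMul b)) = _
    rw [map_mul, f.2, levelPi_smul_of_memY hW hY hψY])
  map_add' f f' := by
    refine AddMonoidHom.ext fun a => ?_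
    rfl
  map_smul' c f := by
    refine AddMonoidHom.ext fun a => ?_
    rfl

theorem resSY_apply (hW : ActsThroughY χ K W ψ₁ ψN) (hY : Y ≤ unitsOneNT N₁ T)
    (hψY : ∀ y ∈ Y, ψN (ZMod.unitsMap (dvd_mul_right N₁ T) y) = 1)
    (f : ↥(B1.Z1 (B1.levelPi χ) K W)) (γ : ↥(GammaSY N₁ T Y)) :
    resSY hW hY hψY f (Additive.ofMul γ) =
      (f : ↥(Gamma0 (N₁ * T)) → W) (Subgroup.inclusion GammaSY_le_Gamma0' γ) := rfl

/-- **(a)** the restriction is an eigenvector -/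
theorem resSY_isEigenY (hW : ActsThroughY χ K W ψ₁ ψN) (hY : Y ≤ unitsOneNT N₁ T)
    (hψY : ∀ y ∈ Y, ψN (ZMod.unitsMap (dvd_mul_right N₁ T) y) = 1)
    (f : ↥(B1.Z1 (B1.levelPi χ) K W)) :
    IsEigenY hY K W ψ₁ ψN (resSY hW hY hψY f) := by
  intro b
  refine AddMonoidHom.ext fun a => ?_
  obtain ⟨γ, rfl⟩ : ∃ γ : ↥(GammaSY N₁ T Y), Additive.ofMul γ = a := ⟨Additive.toMul a, rfl⟩
  unfold cjBY
  rw [conjOp_apply, resSY_apply, AddMonoidHom.smul_apply, resSY_apply]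
  have h1 : Subgroup.inclusion GammaSY_le_Gamma0'
      (conjHom (mapGL ℝ (b : SL(2, ℤ)) : GL (Fin 2) ℝ) (gamma0_isNormY hY b) γ) =
      b * Subgroup.inclusion GammaSY_le_Gamma0' γ * b⁻¹ := by
    apply Subtype.ext
    rw [Subgroup.coe_mul, Subgroup.coe_mul, Subgroup.coe_inv]
    exact conjHom_mapGL (b : SL(2, ℤ)) (gamma0_isNormY hY b) γ
  rw [h1, Z1_conj f.2 b _ (levelPi_smul_of_memY hW hY hψY γ), levelPi_smulY hW]

/-! ### Compatibility with the Hecke operators -/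

section Hecke

variable {ℓ : ℕ} [Fact ℓ.Prime] (hℓ : ¬ ℓ ∣ N₁ * T * T)

/-- the two cocycles differ by the correcting elements -/
theorem incl_tDataD_cY (γ : ↥(GammaSY N₁ T Y)) (y : OnePoint (ZMod ℓ)) :
    Subgroup.inclusion GammaSY_le_Gamma0' ((tDataD hℓ (unitsY N₁ T Y)).c γ y) =
      corrDelta hℓ y *
        (B1.nData (not_dvd_lvl hℓ)).c (Subgroup.inclusion GammaSY_le_Gamma0' γ) y *
        (corrDelta hℓ (tPerm ℓ (Subgroup.inclusion GammaSY_le_Gamma0' γ) y))⁻¹ := by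
  set g : ↥(Gamma0 (N₁ * T)) := Subgroup.inclusion GammaSY_le_Gamma0' γ with hg
  set g' : ↥(Gamma0 (N₁ * T * T)) := toGamma0 (unitsY N₁ T Y) γ with hg'
  have hperm : tPerm ℓ g' y = tPerm ℓ g y := rfl
  -- the unnormalised cocycles agree
  have htc : Subgroup.inclusion gamma0_sq_le (tCoc hℓ g' y) = tCoc (not_dvd_lvl hℓ) g y := by
    apply Subtype.ext
    have h1 := tCoc_rel hℓ g' y
    exact (tCoc_unique (not_dvd_lvl hℓ) g y (tPerm ℓ g' y) _ h1).2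
  have h1 : Subgroup.inclusion GammaSY_le_Gamma0' ((tDataD hℓ (unitsY N₁ T Y)).c γ y) =
      Subgroup.inclusion gamma0_sq_le ((tDataN hℓ).c g' y) := Subtype.ext rfl
  rw [h1, tDataN_c, map_mul, map_mul, map_inv, htc, hperm]
  show _ = corrDelta hℓ y * (B1.nDelta (not_dvd_lvl hℓ) y * tCoc (not_dvd_lvl hℓ) g y *
    (B1.nDelta (not_dvd_lvl hℓ) (tPerm ℓ g y))⁻¹) * (corrDelta hℓ (tPerm ℓ g y))⁻¹
  unfold corrDelta
  group

theorem heckeSY_apply {A : Type*} [AddCommGroup A] (φ : H (GammaSY N₁ T Y) A)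
    (γ : ↥(GammaSY N₁ T Y)) :
    heckeSY hℓ (Y := Y) A φ (Additive.ofMul γ) =
      ∑ y, φ (Additive.ofMul ((tDataD hℓ (unitsY N₁ T Y)).c γ y)) := rfl

/-- **(b)** restriction commutes with `T_ℓ` -/
theorem resSY_heckeZ (hW : ActsThroughY χ K W ψ₁ ψN) (hY : Y ≤ unitsOneNT N₁ T)
    (hψY : ∀ y ∈ Y, ψN (ZMod.unitsMap (dvd_mul_right N₁ T) y) = 1)
    (f : ↥(B1.Z1 (B1.levelPi χ) K W)) :
    resSY hW hY hψY (B1.heckeZ K W (nData_equi (χ := χ) hℓ) f) =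
      heckeSY hℓ (Y := Y) W (resSY hW hY hψY f) := by
  refine AddMonoidHom.ext fun a => ?_
  obtain ⟨γ, rfl⟩ : ∃ γ : ↥(GammaSY N₁ T Y), Additive.ofMul γ = a := ⟨Additive.toMul a, rfl⟩
  rw [resSY_apply, B1.heckeZ_coe, B1.heckeFun_apply]
  rw [heckeSY_apply]
  set g : ↥(Gamma0 (N₁ * T)) := Subgroup.inclusion GammaSY_le_Gamma0' γ with hg
  have key : ∀ y : OnePoint (ZMod ℓ),
      resSY hW hY hψY f (Additive.ofMul ((tDataD hℓ (unitsY N₁ T Y)).c γ y)) =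
        (f : ↥(Gamma0 (N₁ * T)) → W) (corrDelta hℓ y) +
          (f : ↥(Gamma0 (N₁ * T)) → W) ((B1.nData (not_dvd_lvl hℓ)).c g y) -
          (f : ↥(Gamma0 (N₁ * T)) → W) (corrDelta hℓ (tPerm ℓ g y)) := by
    intro y
    rw [resSY_apply, incl_tDataD_cY]
    refine Z1_conj_triple f.2 _ _ _ (levelPi_corrDelta hℓ y) (levelPi_corrDelta hℓ _) ?_
    intro w
    rw [nData_equi (χ := χ) hℓ g y]
    exact levelPi_smul_of_memY hW hY hψY γ w
  rw [Finset.sum_congr rfl fun y _ => key y, Finset.sum_sub_distrib, Finset.sum_add_distrib]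
  have hperm : ∑ y : OnePoint (ZMod ℓ),
      (f : ↥(Gamma0 (N₁ * T)) → W) (corrDelta hℓ (tPerm ℓ g y)) =
      ∑ y : OnePoint (ZMod ℓ), (f : ↥(Gamma0 (N₁ * T)) → W) (corrDelta hℓ y) :=
    Equiv.sum_comp (tPerm ℓ g) (fun y => (f : ↥(Gamma0 (N₁ * T)) → W) (corrDelta hℓ y))
  rw [hperm]
  abel

end Hecke

/-! ### (c) injectivity of the restriction on `H¹` -/

theorem mk_eq_zero_of_resSY_eq_zero [CharZero K] [NeZero (N₁ * T * T)]
    (hW : ActsThroughY χ K W ψ₁ ψN) (hY : Y ≤ unitsOneNT N₁ T)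
    (hψY : ∀ y ∈ Y, ψN (ZMod.unitsMap (dvd_mul_right N₁ T) y) = 1)
    (f : ↥(B1.Z1 (B1.levelPi χ) K W)) (h0 : resSY hW hY hψY f = 0) :
    B1.H1.mk (B1.levelPi χ) K W f = 0 := by
  rw [B1.H1.mk_eq_zero_iff]
  refine exists_coboundary_of_restrict_eq_zero (B1.levelPi χ) (sySub N₁ T Y) _ f.2 ?_
  intro γ hγ
  have h1 := congrFun (congrArg DFunLike.coe h0)
    (Additive.ofMul (⟨(γ : SL(2, ℤ)), mem_sySub.mp hγ⟩ : ↥(GammaSY N₁ T Y)))
  rw [resSY_apply] at h1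
  exact h1

/-- a principal crossed homomorphism restricts to zero on `Γ_Y` -/
theorem resSY_eq_zero_of_mk_eq_zero (hW : ActsThroughY χ K W ψ₁ ψN) (hY : Y ≤ unitsOneNT N₁ T)
    (hψY : ∀ y ∈ Y, ψN (ZMod.unitsMap (dvd_mul_right N₁ T) y) = 1)
    (f : ↥(B1.Z1 (B1.levelPi χ) K W)) (h0 : B1.H1.mk (B1.levelPi χ) K W f = 0) :
    resSY hW hY hψY f = 0 := by
  obtain ⟨w, hw⟩ := (B1.H1.mk_eq_zero_iff f).mp h0
  refine AddMonoidHom.ext fun a => ?_
  obtain ⟨γ, rfl⟩ : ∃ γ : ↥(GammaSY N₁ T Y), Additive.ofMul γ = a := ⟨Additive.toMul a, rfl⟩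
  rw [resSY_apply, hw, levelPi_smul_of_memY hW hY hψY γ w, sub_self]
  rfl

/-! ### From eigenclasses to eigen-homomorphisms -/

/-- **CLASS-Y**: a nonzero class in `H¹(Γ₀(N₁ T), W)` restricts to a nonzero homomorphism on `Γ_Y`,
an eigenvector for the conjugation by `Γ₀(N₁ T)`, with the same Hecke eigenvalues -/
theorem exists_eigenhom_of_eigenclass [CharZero K] [NeZero (N₁ * T * T)]
    (hW : ActsThroughY χ K W ψ₁ ψN) (hY : Y ≤ unitsOneNT N₁ T)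
    (hψY : ∀ y ∈ Y, ψN (ZMod.unitsMap (dvd_mul_right N₁ T) y) = 1)
    (c : B1.H1 (B1.levelPi χ) K W) (hc : c ≠ 0) :
    ∃ φ : H (GammaSY N₁ T Y) W, φ ≠ 0 ∧ IsEigenY hY K W ψ₁ ψN φ ∧
      ∀ (ℓ : ℕ) [Fact ℓ.Prime] (hℓ : ¬ ℓ ∣ N₁ * T * T) (a : K),
        B1.heckeH K W (nData_equi (χ := χ) hℓ) c = a • c →
          heckeSY hℓ (Y := Y) W φ = a • φ := by
  obtain ⟨f, rfl⟩ := B1.H1.mk_surjective (B1.levelPi χ) K W c
  refine ⟨resSY hW hY hψY f, ?_, resSY_isEigenY hW hY hψY f, ?_⟩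
  · intro h0
    exact hc (mk_eq_zero_of_resSY_eq_zero hW hY hψY f h0)
  · intro ℓ _ hℓ a ha
    have h1 : B1.H1.mk (B1.levelPi χ) K W
        (B1.heckeZ K W (nData_equi (χ := χ) hℓ) f - a • f) = 0 := by
      rw [map_sub, map_smul, ← B1.heckeH_mk, ha, sub_self]
    have h2 := resSY_eq_zero_of_mk_eq_zero hW hY hψY _ h1
    rw [map_sub, map_smul, resSY_heckeZ, sub_eq_zero] at h2
    exact h2

end Fermat.Agent.S43lib.B2.Tw
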