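/-
S43lib / B1x / EisD  (helper1, brick (F) EIS-D for helper5's partial twist).

**The Eisenstein lemma on `GammaD M X`.**  For a prime `ℓ ≡ 1` modulo `M`, a subgroup `X` of `(ℤ/M)ˣ`
and a torsion-free abelian group `A`, the operator `T_ℓ - (1 + ℓ)` (`T_ℓ = heckeD`, helper5's
normalised operator of `B2/Bridge/HeckeN.lean`) maps `Hom(GammaD M X, A)` into the parabolic classes.

This is helper5's `heckeT_sub_isParabolicHom` (`B2/Bridge/Eis.lean`) with `Γ₀(M)` replaced by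
`GammaD M X = {γ ∈ Γ₀(M) | d(γ) ∈ X}`: `Γ(M) ≤ GammaD M X`, the cusp homomorphisms are defined by
conjugation `Γ(M) → GammaD M X`, and the normalised cocycle is
`tDataD.c n y = s_y · tCoc n y · s_y⁻¹` with `s_∞ = σ_ℓ`, `d(σ_ℓ) = ℓ ≡ 1 (M)`, so `s_y ∈ GammaD M X`.
-/
import Mathlib
import Fermat.Agent.S43lib.B2.Bridge.Eis

set_option autoImplicit false
set_option linter.unusedSectionVars false

noncomputable section

namespace Fermat.Agent.S43lib.B2.Bridge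

open CongruenceSubgroup Matrix.SpecialLinearGroup ModularForm ModularCurve.Period
open Fermat.Agent.S41lib.HC Fermat.Agent.S16lib.LH Fermat.Agent.S29lib.H
open P2MW.S_ModularForm_heckeT_slash_eq_self_of_mem_Gamma0.ModularForm.HeckeSlashInvariance
open scoped MatrixGroups

/-! ### Membership in `GammaD M X` -/

section Mem

variable {M : ℕ} (X : Subgroup (ZMod M)ˣ)

theorem Gamma_le_GammaD (M : ℕ) (X : Subgroup (ZMod M)ˣ) : Gamma M ≤ GammaD M X := by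
  intro γ hγ
  rw [mem_GammaD]
  refine ⟨Gamma_le_Gamma0' M hγ, ?_⟩
  have h1 : dUnit M ⟨γ, Gamma_le_Gamma0' M hγ⟩ = 1 := by
    apply Units.ext
    rw [coe_dUnit']
    rw [Gamma_mem] at hγ
    exact hγ.2.2.2
  rw [h1]
  exact X.one_mem

theorem tauZ_mem_GammaD (m : ℤ) : tauZ m ∈ GammaD M X := by
  rw [mem_GammaD]
  refine ⟨tauZ_mem_Gamma0 M m, ?_⟩
  have h1 : dUnit M ⟨tauZ m, tauZ_mem_Gamma0 M m⟩ = 1 := by
    apply Units.ext
    rw [coe_dUnit']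
    simp
  rw [h1]
  exact X.one_mem

variable {ℓ : ℕ} [Fact ℓ.Prime] (hℓM : ¬ ℓ ∣ M)

/-- for `ℓ ≡ 1 (M)` the normalising elements lie in every `GammaD M X` -/
theorem sN_mem_GammaD (h1 : (M : ℤ) ∣ (ℓ : ℤ) - 1) (y : OnePoint (ZMod ℓ)) :
    ((sN hℓM y : ↥(Gamma0 M)) : SL(2, ℤ)) ∈ GammaD M X := by
  have hℓ : ((ℓ : ℕ) : ZMod M) = 1 := by
    have := (ZMod.intCast_zmod_eq_zero_iff_dvd _ _).mpr h1
    push_cast at this
    exact sub_eq_zero.mp this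
  apply mem_GammaD_of_dUnit
  have h2 : dUnit M (sN hℓM y) = 1 := by
    apply Units.ext
    rw [coe_dUnit]
    induction y using OnePoint.rec with
    | infty => rw [sN_infty, gamma0Map_sigmaL, hℓ, Units.val_one]
    | coe j => rw [sN_coe, map_one, Units.val_one]
  rw [h2]
  exact X.one_mem

end Mem

/-! ### The cusp homomorphisms on `GammaD M X` -/

section CuspD

variable {M : ℕ} {X : Subgroup (ZMod M)ˣ} {A : Type*} [AddCommGroup A]

/-- `n ↦ Y n Y⁻¹`, `Γ(M) → GammaD M X` -/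
def conjGammaD (M : ℕ) (X : Subgroup (ZMod M)ˣ) (Y : SL(2, ℤ)) : ↥(Gamma M) →* ↥(GammaD M X) :=
  haveI : (Gamma M).Normal := Gamma_normal M
  (Subgroup.inclusion (Gamma_le_GammaD M X)).comp
    (MulAut.conjNormal Y : MulAut ↥(Gamma M)).toMonoidHom

theorem coe_conjGammaD (Y : SL(2, ℤ)) (n : ↥(Gamma M)) :
    ((conjGammaD M X Y n : ↥(GammaD M X)) : SL(2, ℤ)) = Y * (n : SL(2, ℤ)) * Y⁻¹ := by
  have : (Gamma M).Normal := Gamma_normal M
  exact MulAut.conjNormal_apply Y n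

variable (φ : H (GammaD M X) A)

/-- `n ↦ φ(Y n Y⁻¹)` on `Γ(M)` -/
def cuspHomD (Y : SL(2, ℤ)) : Additive ↥(Gamma M) →+ A :=
  φ.comp (MonoidHom.toAdditive (conjGammaD M X Y))

theorem cuspHomD_apply (Y : SL(2, ℤ)) (n : ↥(Gamma M)) :
    cuspHomD φ Y (Additive.ofMul n) = φ (Additive.ofMul (conjGammaD M X Y n)) := rfl

theorem cuspHomD_eq_of_coe (Y : SL(2, ℤ)) (n : ↥(Gamma M)) (g : ↥(GammaD M X))
    (hg : (g : SL(2, ℤ)) = Y * (n : SL(2, ℤ)) * Y⁻¹) :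
    φ (Additive.ofMul g) = cuspHomD φ Y (Additive.ofMul n) := by
  rw [cuspHomD_apply]
  congr 2
  apply Subtype.ext
  rw [hg, coe_conjGammaD]

theorem cuspHomD_mul_right (Y : SL(2, ℤ)) (ν n : ↥(Gamma M)) :
    cuspHomD φ (Y * (ν : SL(2, ℤ))) (Additive.ofMul n) = cuspHomD φ Y (Additive.ofMul n) := by
  rw [← hom_conj (cuspHomD φ Y) ν n, cuspHomD_apply, cuspHomD_apply]
  congr 2
  apply Subtype.ext
  rw [coe_conjGammaD, coe_conjGammaD, Subgroup.coe_mul, Subgroup.coe_mul, Subgroup.coe_inv]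
  group

theorem cuspHomD_mul_left (b : ↥(GammaD M X)) (Y : SL(2, ℤ)) (n : ↥(Gamma M)) :
    cuspHomD φ ((b : SL(2, ℤ)) * Y) (Additive.ofMul n) = cuspHomD φ Y (Additive.ofMul n) := by
  rw [cuspHomD_apply, cuspHomD_apply, ← hom_conj φ b (conjGammaD M X Y n)]
  congr 2
  apply Subtype.ext
  rw [coe_conjGammaD, Subgroup.coe_mul, Subgroup.coe_mul, Subgroup.coe_inv, coe_conjGammaD]
  group

/-- the value `φ(Y τ^{M k} Y⁻¹)` -/
def cuspValD (Y : SL(2, ℤ)) (k : ℤ) : A := cuspHomD φ Y (Additive.ofMul (tauG M k))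

theorem cuspValD_mul_tauZ (Y : SL(2, ℤ)) (c k : ℤ) :
    cuspValD φ (Y * tauZ c) k = cuspValD φ Y k := by
  unfold cuspValD
  rw [cuspHomD_apply, cuspHomD_apply]
  congr 2
  apply Subtype.ext
  rw [coe_conjGammaD, coe_conjGammaD]
  show Y * tauZ c * tauZ (M * k) * (Y * tauZ c)⁻¹ = Y * tauZ (M * k) * Y⁻¹
  rw [mul_inv_rev, mul_assoc Y, tauZ_comm, ← tauZ_neg]
  have : Y * (tauZ (↑M * k) * tauZ c) * (tauZ (-c) * Y⁻¹) =
      Y * tauZ (M * k) * (tauZ c * tauZ (-c)) * Y⁻¹ := by group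
  rw [this, ← tauZ_add, add_neg_cancel, tauZ_zero, mul_one]

theorem cuspValD_nat_mul (Y : SL(2, ℤ)) (j : ℕ) (k : ℤ) :
    cuspValD φ Y (j * k) = j • cuspValD φ Y k := by
  unfold cuspValD
  have : tauG M (j * k) = tauG M k ^ j := by
    apply Subtype.ext
    show tauZ (M * (j * k)) = tauZ (M * k) ^ j
    rw [tauZ_pow]
    congr 1
    ring
  rw [this, ofMul_pow, map_nsmul]

/-- the cusp value only depends on `Y` modulo `GammaD M X` on the left, translations and `Γ(M)` on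
the right -/
theorem cuspValD_congr (Y Y' : SL(2, ℤ)) (b₀ : ↥(GammaD M X)) (b : ℤ) (ν : ↥(Gamma M))
    (h : Y' * tauZ b = (b₀ : SL(2, ℤ)) * Y * (ν : SL(2, ℤ))) (k : ℤ) :
    cuspValD φ Y' k = cuspValD φ Y k := by
  rw [← cuspValD_mul_tauZ φ Y' b k, h]
  unfold cuspValD
  rw [cuspHomD_mul_right, cuspHomD_mul_left φ b₀ Y]

end CuspD

/-! ### The Eisenstein lemma on `GammaD M X` -/

section MainD

variable {M ℓ : ℕ} [Fact ℓ.Prime] (hℓM : ¬ ℓ ∣ M) (h1 : (M : ℤ) ∣ (ℓ : ℤ) - 1)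
variable (X : Subgroup (ZMod M)ˣ) {A : Type*} [AddCommGroup A]

include h1 in
/-- **`T_ℓ` (normalised, on `GammaD M X`) at `n = G τ^{ℓ M k} G⁻¹`** -/
theorem heckeD_apply_conj_tauZ (φ : H (GammaD M X) A) (G : SL(2, ℤ)) (k : ℤ) (n : ↥(GammaD M X))
    (hn : (n : SL(2, ℤ)) = G * tauZ (ℓ * (M * k)) * G⁻¹) :
    heckeD hℓM X A φ (Additive.ofMul n) = (ℓ * ℓ + ℓ) • cuspValD φ G k := by
  show (tDataD hℓM X).op A φ (Additive.ofMul n) = _
  rw [CosetData.op_apply]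
  have key : ∀ y : OnePoint (ZMod ℓ), φ (Additive.ofMul ((tDataD hℓM X).c n y)) =
      cuspValD φ G (cuspK ℓ k (redMatrix ℓ G • y)) := by
    intro y
    obtain ⟨G', -, hrel⟩ := heckeRep_mul (N := 1) (p := ℓ) (by
      intro h
      exact (Fact.out : ℓ.Prime).one_lt.ne' (Nat.dvd_one.mp h)) G (one_dvd _) y
    set z := redMatrix ℓ G • y with hz
    have hinv : heckeRep ℓ z * (mapGL ℝ G : GL (Fin 2) ℝ)⁻¹ =
        (mapGL ℝ G' : GL (Fin 2) ℝ)⁻¹ * heckeRep ℓ y := by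
      rw [eq_inv_mul_iff_mul_eq, ← mul_assoc, ← hrel, mul_inv_cancel_right]
    have hn' : ((toGamma0 X n : ↥(Gamma0 M)) : SL(2, ℤ)) = G * tauZ (ℓ * (M * k)) * G⁻¹ := hn
    have hcomp : heckeRep ℓ y * (mapGL ℝ ((toGamma0 X n : ↥(Gamma0 M)) : SL(2, ℤ)) : GL (Fin 2) ℝ) =
        (mapGL ℝ (G' * tauZ (repK ℓ (M * k) z) * G'⁻¹) : GL (Fin 2) ℝ) * heckeRep ℓ y := by
      rw [hn', map_mul, map_mul, map_inv, map_mul, map_mul, map_inv]
      calc heckeRep ℓ y * ((mapGL ℝ G : GL (Fin 2) ℝ) * (mapGL ℝ (tauZ (ℓ * (M * k))) : GL (Fin 2) ℝ) *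
            (mapGL ℝ G : GL (Fin 2) ℝ)⁻¹)
          = (heckeRep ℓ y * (mapGL ℝ G : GL (Fin 2) ℝ)) *
              (mapGL ℝ (tauZ (ℓ * (M * k))) : GL (Fin 2) ℝ) * (mapGL ℝ G : GL (Fin 2) ℝ)⁻¹ := by
            group
        _ = (mapGL ℝ G' : GL (Fin 2) ℝ) *
              (heckeRep ℓ z * (mapGL ℝ (tauZ (ℓ * (M * k))) : GL (Fin 2) ℝ)) *
              (mapGL ℝ G : GL (Fin 2) ℝ)⁻¹ := by
            rw [hrel]
            group
        _ = (mapGL ℝ G' : GL (Fin 2) ℝ) * (mapGL ℝ (tauZ (repK ℓ (M * k) z)) : GL (Fin 2) ℝ) *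
              (heckeRep ℓ z * (mapGL ℝ G : GL (Fin 2) ℝ)⁻¹) := by
            rw [heckeRep_mul_tauZ]
            group
        _ = _ := by
            rw [hinv]
            group
    obtain ⟨hperm, hc⟩ := tCoc_unique hℓM (toGamma0 X n) y y _ hcomp
    obtain ⟨ν, hν⟩ := exists_gamma_of_rel h1 hrel
    have h2 : φ (Additive.ofMul ((tDataD hℓM X).c n y)) =
        cuspValD φ (((sN hℓM y : ↥(Gamma0 M)) : SL(2, ℤ)) * G') (cuspK ℓ k z) := by
      refine cuspHomD_eq_of_coe φ _ (tauG M (cuspK ℓ k z)) ((tDataD hℓM X).c n y) ?_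
      rw [coe_tDataD_c, tDataN_c, ← hperm, Subgroup.coe_mul, Subgroup.coe_mul, Subgroup.coe_inv,
        ← hc, repK_mul]
      show ((sN hℓM y : ↥(Gamma0 M)) : SL(2, ℤ)) * (G' * tauZ (M * cuspK ℓ k z) * G'⁻¹) *
          ((sN hℓM y : ↥(Gamma0 M)) : SL(2, ℤ))⁻¹ =
        ((sN hℓM y : ↥(Gamma0 M)) : SL(2, ℤ)) * G' * tauZ (M * cuspK ℓ k z) *
          (((sN hℓM y : ↥(Gamma0 M)) : SL(2, ℤ)) * G')⁻¹
      group
    rw [h2]
    refine cuspValD_congr φ G _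
      ⟨((sN hℓM y : ↥(Gamma0 M)) : SL(2, ℤ)) * tauZ (repA ℓ y),
        (GammaD M X).mul_mem (sN_mem_GammaD X hℓM h1 y) (tauZ_mem_GammaD X _)⟩
      (repA ℓ z) ν ?_ _
    show ((sN hℓM y : ↥(Gamma0 M)) : SL(2, ℤ)) * G' * tauZ (repA ℓ z) =
      ((sN hℓM y : ↥(Gamma0 M)) : SL(2, ℤ)) * tauZ (repA ℓ y) * G * (ν : SL(2, ℤ))
    rw [mul_assoc, hν]
    group
  rw [Finset.sum_congr rfl fun y _ => key y]
  have hperm : ∑ y : OnePoint (ZMod ℓ), cuspValD φ G (cuspK ℓ k (redMatrix ℓ G • y)) =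
      ∑ z : OnePoint (ZMod ℓ), cuspValD φ G (cuspK ℓ k z) :=
    Equiv.sum_comp (MulAction.toPerm (redMatrix ℓ G))
      (fun z : OnePoint (ZMod ℓ) => cuspValD φ G (cuspK ℓ k z))
  rw [hperm]
  refine (Fintype.sum_option (fun z : OnePoint (ZMod ℓ) => cuspValD φ G (cuspK ℓ k z))).trans ?_
  have h3 : cuspValD φ G (cuspK ℓ k (none : OnePoint (ZMod ℓ))) = (ℓ * ℓ) • cuspValD φ G k :=
    cuspValD_nat_mul φ G (ℓ * ℓ) k
  have h4 : ∀ j : ZMod ℓ, cuspValD φ G (cuspK ℓ k (some j : OnePoint (ZMod ℓ))) =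
      cuspValD φ G k := fun j => rfl
  rw [h3, Finset.sum_congr rfl fun j _ => h4 j, Finset.sum_const, Finset.card_univ, ZMod.card,
    add_smul]

end MainD

/-- **The Eisenstein lemma on `GammaD M X`** (helper5's brick (F) EIS-D): for `ℓ ≡ 1 (M)`,
`T_ℓ - (1 + ℓ)` maps `Hom(GammaD M X, A)`, `A` torsion-free, into the parabolic classes. -/
theorem heckeD_sub_isParabolicHom {M ℓ : ℕ} [Fact ℓ.Prime] (hℓM : ¬ ℓ ∣ M)
    (h1 : (M : ℤ) ∣ (ℓ : ℤ) - 1) (X : Subgroup (ZMod M)ˣ) {A : Type*} [AddCommGroup A]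
    [IsAddTorsionFree A] (φ : H (GammaD M X) A) :
    IsParabolicHom (GammaD M X) (heckeD hℓM X A φ - (1 + ℓ) • φ) := by
  intro γ hγ
  have hℓ2 : 2 ≤ ℓ := (Fact.out : ℓ.Prime).two_le
  have hM0 : M ≠ 0 := by
    rintro rfl
    rw [Nat.cast_zero, zero_dvd_iff] at h1
    have : (ℓ : ℤ) = 1 := by linarith
    have : ℓ = 1 := by exact_mod_cast this
    omega
  obtain ⟨g, s, h | h⟩ :=
    Fermat.Agent.S29lib.K3.exists_eq_conj_T_zpow_of_isPar (γ : SL(2, ℤ)) hγ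
  all_goals
    have hsq : ((γ : SL(2, ℤ))) ^ 2 = g⁻¹ * tauZ (2 * s) * (g⁻¹)⁻¹ := by
      rw [h, ← tauZ_eq_T_zpow, pow_two, two_mul, tauZ_add]
      try rw [neg_mul_neg]
      group
    have hpow : ∀ j : ℕ, ((γ : SL(2, ℤ))) ^ (2 * j) = g⁻¹ * tauZ (j * (2 * s)) * (g⁻¹)⁻¹ := by
      intro j
      rw [pow_mul, hsq, conj_pow, tauZ_pow]
    -- `n = γ^{2 M ℓ}`, `u = γ^{2 M}`
    have hn : ((γ ^ (2 * (M * ℓ)) : ↥(GammaD M X)) : SL(2, ℤ)) =
        g⁻¹ * tauZ (ℓ * (M * (2 * s))) * (g⁻¹)⁻¹ := by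
      rw [Subgroup.coe_pow, hpow]
      congr 3
      push_cast
      ring
    have hu : ((γ ^ (2 * M) : ↥(GammaD M X)) : SL(2, ℤ)) =
        g⁻¹ * ((tauG M (2 * s) : ↥(Gamma M)) : SL(2, ℤ)) * (g⁻¹)⁻¹ := by
      rw [Subgroup.coe_pow, hpow]
      rfl
    have hE := heckeD_apply_conj_tauZ hℓM h1 X φ g⁻¹ (2 * s) (γ ^ (2 * (M * ℓ))) hn
    rw [ofMul_pow, map_nsmul] at hE
    have hφ : (2 * M) • φ (Additive.ofMul γ) = cuspValD φ g⁻¹ (2 * s) := by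
      rw [← map_nsmul, ← ofMul_pow]
      exact cuspHomD_eq_of_coe φ g⁻¹ (tauG M (2 * s)) (γ ^ (2 * M)) hu
    have hfin : (2 * (M * ℓ)) • ((heckeD hℓM X A φ - (1 + ℓ) • φ) (Additive.ofMul γ)) = 0 := by
      rw [AddMonoidHom.sub_apply, AddMonoidHom.nsmul_apply, smul_sub, hE, ← hφ, smul_smul,
        smul_smul]
      have : (ℓ * ℓ + ℓ) * (2 * M) = 2 * (M * ℓ) * (1 + ℓ) := by ring
      rw [this, sub_self]
    have hne : 2 * (M * ℓ) ≠ 0 := by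
      have : 0 < M * ℓ := Nat.mul_pos (Nat.pos_of_ne_zero hM0) (by omega)
      omega
    exact (nsmul_eq_zero_iff_right hne).mp hfin

end Fermat.Agent.S43lib.B2.Bridge
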