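/-
S43lib / B1x / HeckeAlg (helper1, brick (H) for helper3's B1).

The Hecke algebra as the faithful quotient `HeckeImg P N = P ⧸ Ann_P(N)` of a commutative algebra `P`
(a polynomial ring) acting on a module `N` (finite over a noetherian ring `𝒪`):
`HeckeImg P N` is a finite `𝒪`-algebra acting faithfully on `N`; if every `s ∉ 𝔪` acts bijectively
on `N ≠ 0` (`𝔪 ⊂ P` a proper ideal), it is a local ring with maximal ideal the image of `𝔪`, and
`𝒪 → HeckeImg P N` is a local homomorphism.  Thin wrapper around `Loc/HeckeLocal.lean`.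

`HeckeImg` is a `def` (not an `abbrev`): the module instance on `N` is attached to the synonym and
does not pollute instance search on arbitrary quotient rings.
-/
import Mathlib
import Fermat.Agent.S43lib.Loc.HeckeLocal

set_option autoImplicit false
set_option linter.style.haveILetI false
set_option linter.unusedSectionVars false

namespace Fermat.Agent.S43lib.B1

open IsLocalRing Fermat.Agent.S43lib.Loc.HeckeLocal

/-- The faithful quotient of `P` acting on `N`. -/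
def HeckeImg (P N : Type*) [CommRing P] [AddCommGroup N] [Module P N] : Type _ :=
  P ⧸ Module.annihilator P N

namespace HeckeImg

section Basic

variable (P N : Type*) [CommRing P] [AddCommGroup N] [Module P N]

noncomputable instance instCommRing : CommRing (HeckeImg P N) :=
  inferInstanceAs (CommRing (P ⧸ Module.annihilator P N))

/-- The quotient map. -/
noncomputable def mk : P →+* HeckeImg P N := Ideal.Quotient.mk (Module.annihilator P N)

variable {P N}

theorem mk_eq (s : P) : mk P N s = Ideal.Quotient.mk (Module.annihilator P N) s := rfl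

theorem mk_surjective : Function.Surjective (mk P N) := Ideal.Quotient.mk_surjective

theorem mk_eq_zero_iff (s : P) : mk P N s = 0 ↔ ∀ n : N, s • n = 0 :=
  (Ideal.Quotient.eq_zero_iff_mem (I := Module.annihilator P N) (a := s)).trans
    Module.mem_annihilator

noncomputable instance instModule : Module (HeckeImg P N) N :=
  Module.quotientAnnihilator

@[simp] theorem mk_smul (s : P) (n : N) : mk P N s • n = s • n := rfl

noncomputable instance instAlgebraSelf : Algebra P (HeckeImg P N) :=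
  inferInstanceAs (Algebra P (P ⧸ Module.annihilator P N))

instance instIsScalarTowerSelf : IsScalarTower P (HeckeImg P N) N :=
  ⟨fun s t n => by
    obtain ⟨t, rfl⟩ := mk_surjective t
    show (mk P N (s * t)) • n = s • (mk P N t • n)
    rw [mk_smul, mk_smul, mul_smul]⟩

theorem eq_zero_of_forall_smul (t : HeckeImg P N) (h : ∀ n : N, t • n = 0) : t = 0 := by
  obtain ⟨s, rfl⟩ := mk_surjective t
  exact (mk_eq_zero_iff s).mpr h

instance instFaithfulSMul : FaithfulSMul (HeckeImg P N) N :=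
  ⟨fun {a b} h => by
    rw [← sub_eq_zero]
    apply eq_zero_of_forall_smul
    intro n
    rw [sub_smul, h n, sub_self]⟩

end Basic

section Alg

variable (𝒪 : Type*) [CommRing 𝒪] {P N : Type*} [CommRing P] [Algebra 𝒪 P] [AddCommGroup N]
  [Module 𝒪 N] [Module P N] [IsScalarTower 𝒪 P N]

noncomputable instance instAlgebra : Algebra 𝒪 (HeckeImg P N) :=
  inferInstanceAs (Algebra 𝒪 (P ⧸ Module.annihilator P N))

/-- The quotient map as an algebra map. -/
noncomputable def mkₐ : P →ₐ[𝒪] HeckeImg P N := Ideal.Quotient.mkₐ 𝒪 (Module.annihilator P N)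

theorem mkₐ_apply (s : P) : mkₐ 𝒪 (N := N) s = mk P N s := rfl

theorem mkₐ_surjective : Function.Surjective (mkₐ 𝒪 (P := P) (N := N)) := mk_surjective

theorem algebraMap_eq (a : 𝒪) : algebraMap 𝒪 (HeckeImg P N) a = mk P N (algebraMap 𝒪 P a) := rfl

instance instIsScalarTower : IsScalarTower 𝒪 (HeckeImg P N) N :=
  ⟨fun a t n => by
    obtain ⟨t, rfl⟩ := mk_surjective t
    have h1 : a • mk P N t = mk P N (a • t) := by
      rw [Algebra.smul_def, Algebra.smul_def, algebraMap_eq, map_mul]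
    rw [h1, mk_smul, mk_smul, smul_assoc]⟩

end Alg

end HeckeImg

section Facts

variable {𝒪 P N : Type*} [CommRing 𝒪] [CommRing P] [Algebra 𝒪 P] [AddCommGroup N] [Module 𝒪 N]
  [Module P N] [IsScalarTower 𝒪 P N]

theorem heckeImg_mk_smul (s : P) (n : N) : HeckeImg.mk P N s • n = s • n := rfl

theorem heckeImg_faithful (t : HeckeImg P N) (h : ∀ n : N, t • n = 0) : t = 0 :=
  HeckeImg.eq_zero_of_forall_smul t h

variable (𝒪 P N) in
/-- `HeckeImg P N` is a finite `𝒪`-module (it embeds in `End_𝒪 N`). -/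
theorem heckeImg_finite [IsNoetherianRing 𝒪] [Module.Finite 𝒪 N] :
    Module.Finite 𝒪 (HeckeImg P N) :=
  finite_of_faithful (M := N)

variable (𝒪) in
/-- `s ∈ P` acting surjectively on `N` becomes a unit of `HeckeImg P N`. -/
theorem heckeImg_isUnit_of_surjective [Module.Finite 𝒪 N] {s : P}
    (hs : Function.Surjective fun n : N => s • n) : IsUnit (HeckeImg.mk P N s) :=
  isUnit_of_surjective_smul (𝒪 := 𝒪) (M := N) _ hs

variable (𝒪) in
theorem heckeImg_isUnit [Module.Finite 𝒪 N] (𝔪 : Ideal P)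
    (hbij : ∀ s : P, s ∉ 𝔪 → Function.Bijective fun n : N => s • n) {s : P} (hs : s ∉ 𝔪) :
    IsUnit (HeckeImg.mk P N s) :=
  heckeImg_isUnit_of_surjective 𝒪 (hbij s hs).2

variable (𝒪) in
theorem heckeImg_isLocalRing [Module.Finite 𝒪 N] (𝔪 : Ideal P) (h𝔪 : 𝔪 ≠ ⊤) [Nontrivial N]
    (hbij : ∀ s : P, s ∉ 𝔪 → Function.Bijective fun n : N => s • n) :
    IsLocalRing (HeckeImg P N) :=
  isLocalRing_of_surjective_smul (𝒪 := 𝒪) (M := N) (HeckeImg.mk P N) HeckeImg.mk_surjective 𝔪 h𝔪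
    fun s hs => (hbij s hs).2

variable (𝒪) in
theorem heckeImg_mem_maximalIdeal [Module.Finite 𝒪 N] (𝔪 : Ideal P) (h𝔪 : 𝔪 ≠ ⊤) [Nontrivial N]
    (hbij : ∀ s : P, s ∉ 𝔪 → Function.Bijective fun n : N => s • n)
    [IsLocalRing (HeckeImg P N)] (s : P) :
    HeckeImg.mk P N s ∈ maximalIdeal (HeckeImg P N) ↔ s ∈ 𝔪 :=
  map_mem_maximalIdeal_iff (𝒪 := 𝒪) (M := N) (HeckeImg.mk P N) HeckeImg.mk_surjective 𝔪 h𝔪
    (fun s hs => (hbij s hs).2) s

variable (𝒪) in
theorem heckeImg_maximalIdeal_eq [Module.Finite 𝒪 N] (𝔪 : Ideal P) (h𝔪 : 𝔪 ≠ ⊤) [Nontrivial N]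
    (hbij : ∀ s : P, s ∉ 𝔪 → Function.Bijective fun n : N => s • n)
    [IsLocalRing (HeckeImg P N)] :
    maximalIdeal (HeckeImg P N) = 𝔪.map (HeckeImg.mk P N) :=
  maximalIdeal_eq_map (𝒪 := 𝒪) (M := N) (HeckeImg.mk P N) HeckeImg.mk_surjective 𝔪 h𝔪
    (fun s hs => (hbij s hs).2)

variable (𝒪 P N) in
/-- `𝒪 → HeckeImg P N` is a local homomorphism (no hypothesis on `𝔪` is needed: Nakayama). -/
theorem heckeImg_isLocalHom [IsLocalRing 𝒪] [IsNoetherianRing 𝒪] [Module.Finite 𝒪 N]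
    [IsLocalRing (HeckeImg P N)] : IsLocalHom (algebraMap 𝒪 (HeckeImg P N)) := by
  haveI := heckeImg_finite 𝒪 P N
  exact isLocalHom_algebraMap_of_finite

variable (𝒪 P N) in
theorem heckeImg_isAdicComplete [IsLocalRing 𝒪] [IsNoetherianRing 𝒪]
    [IsAdicComplete (maximalIdeal 𝒪) 𝒪] [Module.Finite 𝒪 N] [IsLocalRing (HeckeImg P N)] :
    IsAdicComplete (maximalIdeal (HeckeImg P N)) (HeckeImg P N) := by
  haveI := heckeImg_finite 𝒪 P N
  exact isAdicComplete_of_finite (𝒪 := 𝒪)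

variable (𝒪) in
/-- The residue field of `HeckeImg P N` is a quotient of `𝒪` as soon as `P ⧸ 𝔪` is. -/
theorem heckeImg_residue [Module.Finite 𝒪 N] (𝔪 : Ideal P) (h𝔪 : 𝔪 ≠ ⊤) [Nontrivial N]
    (hbij : ∀ s : P, s ∉ 𝔪 → Function.Bijective fun n : N => s • n)
    (hres : ∀ s : P, ∃ a : 𝒪, s - algebraMap 𝒪 P a ∈ 𝔪)
    [IsLocalRing (HeckeImg P N)] (t : HeckeImg P N) :
    ∃ a : 𝒪, t - algebraMap 𝒪 (HeckeImg P N) a ∈ maximalIdeal (HeckeImg P N) := by
  obtain ⟨s, rfl⟩ := HeckeImg.mk_surjective t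
  obtain ⟨a, ha⟩ := hres s
  refine ⟨a, ?_⟩
  rw [HeckeImg.algebraMap_eq, ← map_sub, heckeImg_mem_maximalIdeal 𝒪 𝔪 h𝔪 hbij]
  exact ha

/-- **Everything at once**, for `𝒪` complete noetherian local. -/
theorem heckeImg_package [IsLocalRing 𝒪] [IsNoetherianRing 𝒪] [IsAdicComplete (maximalIdeal 𝒪) 𝒪]
    [Module.Finite 𝒪 N] [Nontrivial N] (𝔪 : Ideal P) (h𝔪 : 𝔪 ≠ ⊤)
    (hbij : ∀ s : P, s ∉ 𝔪 → Function.Bijective fun n : N => s • n)
    (hres : ∀ s : P, ∃ a : 𝒪, s - algebraMap 𝒪 P a ∈ 𝔪) :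
    ∃ _ : IsLocalRing (HeckeImg P N), Module.Finite 𝒪 (HeckeImg P N) ∧
      IsNoetherianRing (HeckeImg P N) ∧
      IsAdicComplete (maximalIdeal (HeckeImg P N)) (HeckeImg P N) ∧
      IsLocalHom (algebraMap 𝒪 (HeckeImg P N)) ∧
      (∀ s : P, HeckeImg.mk P N s ∈ maximalIdeal (HeckeImg P N) ↔ s ∈ 𝔪) ∧
      (∀ t : HeckeImg P N, ∃ a : 𝒪,
        t - algebraMap 𝒪 (HeckeImg P N) a ∈ maximalIdeal (HeckeImg P N)) ∧
      (Finite (ResidueField 𝒪) → Finite (ResidueField (HeckeImg P N))) := by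
  obtain ⟨h1, h2, h3, h4, h5, h6, _, h8, _, h10⟩ :=
    heckeLocal_package (𝒪 := 𝒪) (B := HeckeImg P N) (M := N) (HeckeImg.mkₐ 𝒪)
      (HeckeImg.mkₐ_surjective 𝒪) 𝔪 h𝔪 (fun s hs => (hbij s hs).2) hres
  exact ⟨h1, h2, h3, h4, h5, h6, h8, h10⟩

end Facts

end Fermat.Agent.S43lib.B1
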