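/-
S43lib / B1x / HeckeAlgB1 (helper1, brick (H) for helper3's B1, B1-vocabulary corollaries).

* `HeckeSys.bijective_smul_F` : `s ∉ 𝔪` acts bijectively on `S.F R W 𝔪`;
* `HeckeSys.comboEquiv`, `free_of_combo`, `finite_of_combo`, `finrank_of_combo`,
  `nontrivial_of_combo` : a `Reg G 𝒪`-basis of `S.F 𝒪 (Reg G 𝒪) 𝔪` (in the sense of
  `lvlSys_exists_basis`: `∀ x, ∃! c, x = S.combo 𝔪 b c`) makes it a free `𝒪`-module of rank `r·|G|`;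
* `exists_sub_C_mem_of_ev` : `P ⧸ 𝔪` is a quotient of `𝒪` when `𝔪` is the kernel of a point `ev`;
* `HeckeSys.heckeImg_package_F` : the Hecke algebra `HeckeImg 𝒪[X_I] (S.F 𝒪 (Reg G 𝒪) 𝔪)` is a
  complete noetherian local `𝒪`-algebra, finite over `𝒪`, with maximal ideal the image of `𝔪`.
-/
import Mathlib
import Fermat.Agent.S43lib.B1.Free
import Fermat.Agent.S43lib.B1x.HeckeAlg

set_option autoImplicit false
set_option linter.style.haveILetI false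
set_option linter.unusedSectionVars false

noncomputable section

namespace Fermat.Agent.S43lib.B1

open IsLocalRing MvPolynomial Fermat.Agent.S43lib.Loc.HeckeLocal

/-- `Reg G A ≃ₗ (G → A)`. -/
def Reg.linearEquiv (G : Type*) (R A : Type*) [Semiring R] [AddCommGroup A] [Module R A] :
    Reg G A ≃ₗ[R] (G → A) where
  toFun := Reg.toFun
  invFun := Reg.mk
  left_inv _ := rfl
  right_inv _ := rfl
  map_add' _ _ := rfl
  map_smul' _ _ := rfl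

/-- `P ⧸ 𝔪` is a quotient of `𝒪` when `𝔪` is the kernel of a point `ev` with values in the residue
field. -/
theorem exists_sub_C_mem_of_ev {𝒪 : Type*} [CommRing 𝒪] [IsLocalRing 𝒪] {I : Type*}
    (ev : MvPolynomial I 𝒪 →+* ResidueField 𝒪) (hevC : ∀ a, ev (C a) = residue 𝒪 a)
    (𝔪 : Ideal (MvPolynomial I 𝒪)) (h𝔪 : ∀ s, s ∈ 𝔪 ↔ ev s = 0) (s : MvPolynomial I 𝒪) :
    ∃ a : 𝒪, s - algebraMap 𝒪 (MvPolynomial I 𝒪) a ∈ 𝔪 := by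
  obtain ⟨a, ha⟩ := residue_surjective (ev s)
  refine ⟨a, ?_⟩
  rw [h𝔪, map_sub, MvPolynomial.algebraMap_eq, hevC, ha, sub_self]

namespace HeckeSys

variable {Γ G : Type} [Group Γ] [CommGroup G] {I : Type} (S : HeckeSys Γ G I)

/-- (i) elements outside `𝔪` act bijectively on the localised cohomology. -/
theorem bijective_smul_F {R : Type} [CommRing R] (W : Type) [AddCommGroup W] [Module R W]
    [DistribMulAction G W] [SMulCommClass G R W] (𝔪 : Ideal (MvPolynomial I R)) [𝔪.IsPrime]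
    {s : MvPolynomial I R} (hs : s ∉ 𝔪) : Function.Bijective fun y : S.F R W 𝔪 => s • y :=
  bijective_smul_localizedModule 𝔪 (S.Coh R W) hs

variable [Fintype G] {𝒪 : Type} [CommRing 𝒪] [IsDomain 𝒪] [IsLocalRing 𝒪] [IsNoetherianRing 𝒪]
  [IsAdicComplete (maximalIdeal 𝒪) 𝒪] (𝔪 : Ideal (MvPolynomial I 𝒪)) [h𝔪 : 𝔪.IsMaximal]
  [Group.FG Γ] [Finite (ResidueField 𝒪)]

section combo

variable {W : Type} [AddCommGroup W] [Module 𝒪 W] [DistribMulAction G W] [SMulCommClass G 𝒪 W]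
  {r : ℕ} (b : Fin r → S.F 𝒪 W 𝔪) (hb : ∀ x, ∃! c : Fin r → Reg G 𝒪, x = S.combo 𝔪 b c)

/-- (ii) the `𝒪`-linear equivalence given by a `Reg G 𝒪`-basis. -/
def comboEquiv : (Fin r → Reg G 𝒪) ≃ₗ[𝒪] S.F 𝒪 W 𝔪 :=
  LinearEquiv.ofBijective
    { toFun := S.combo 𝔪 b
      map_add' := map_add _
      map_smul' := fun a c => S.combo_smul 𝔪 b a c }
    ⟨fun c c' h => by
      obtain ⟨c₀, _, huniq⟩ := hb (S.combo 𝔪 b c)
      have h1 : c = c₀ := huniq c rfl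
      have h2 : c' = c₀ := huniq c' h
      rw [h1, h2],
    fun x => by
      obtain ⟨c, hc, _⟩ := hb x
      exact ⟨c, hc.symm⟩⟩

theorem comboEquiv_apply (c : Fin r → Reg G 𝒪) : S.comboEquiv 𝔪 b hb c = S.combo 𝔪 b c := rfl

/-- the coefficient module `(Fin r → Reg G 𝒪)` is `𝒪`-free of rank `r·|G|`. -/
def coeffEquiv (r : ℕ) : (Fin r → Reg G 𝒪) ≃ₗ[𝒪] (Fin r → G → 𝒪) :=
  LinearEquiv.piCongrRight fun _ => Reg.linearEquiv G 𝒪 𝒪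

include hb in
theorem free_of_combo : Module.Free 𝒪 (S.F 𝒪 W 𝔪) :=
  Module.Free.of_equiv ((coeffEquiv (G := G) (𝒪 := 𝒪) r).symm.trans (S.comboEquiv 𝔪 b hb))

include hb in
theorem finite_of_combo : Module.Finite 𝒪 (S.F 𝒪 W 𝔪) :=
  Module.Finite.equiv ((coeffEquiv (G := G) (𝒪 := 𝒪) r).symm.trans (S.comboEquiv 𝔪 b hb))

include hb in
theorem finrank_of_combo : Module.finrank 𝒪 (S.F 𝒪 W 𝔪) = r * Fintype.card G := by
  rw [← LinearEquiv.finrank_eq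
    ((coeffEquiv (G := G) (𝒪 := 𝒪) r).symm.trans (S.comboEquiv 𝔪 b hb)),
    Module.finrank_pi_fintype]
  simp [Module.finrank_fintype_fun_eq_card]

include hb in
theorem nontrivial_of_combo (hr : 0 < r) : Nontrivial (S.F 𝒪 W 𝔪) := by
  have e := (coeffEquiv (G := G) (𝒪 := 𝒪) r).symm.trans (S.comboEquiv 𝔪 b hb)
  haveI : Nonempty (Fin r) := ⟨⟨0, hr⟩⟩
  haveI : Nonempty G := ⟨1⟩
  haveI : Nontrivial (Fin r → G → 𝒪) := inferInstance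
  exact e.toEquiv.symm.nontrivial

end combo

/-- **The Hecke algebra of the localised cohomology with coefficients in `𝒪[G]`**: a complete
noetherian local `𝒪`-algebra, finite over `𝒪`, with maximal ideal the image of `𝔪`. -/
theorem heckeImg_package_F {r : ℕ} (b : Fin r → S.F 𝒪 (Reg G 𝒪) 𝔪)
    (hb : ∀ x, ∃! c : Fin r → Reg G 𝒪, x = S.combo 𝔪 b c) (hr : 0 < r)
    (hres : ∀ s : MvPolynomial I 𝒪, ∃ a : 𝒪, s - algebraMap 𝒪 (MvPolynomial I 𝒪) a ∈ 𝔪) :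
    ∃ _ : IsLocalRing (HeckeImg (MvPolynomial I 𝒪) (S.F 𝒪 (Reg G 𝒪) 𝔪)),
      Module.Finite 𝒪 (HeckeImg (MvPolynomial I 𝒪) (S.F 𝒪 (Reg G 𝒪) 𝔪)) ∧
      IsNoetherianRing (HeckeImg (MvPolynomial I 𝒪) (S.F 𝒪 (Reg G 𝒪) 𝔪)) ∧
      IsAdicComplete (maximalIdeal (HeckeImg (MvPolynomial I 𝒪) (S.F 𝒪 (Reg G 𝒪) 𝔪)))
        (HeckeImg (MvPolynomial I 𝒪) (S.F 𝒪 (Reg G 𝒪) 𝔪)) ∧
      IsLocalHom (algebraMap 𝒪 (HeckeImg (MvPolynomial I 𝒪) (S.F 𝒪 (Reg G 𝒪) 𝔪))) ∧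
      (∀ s : MvPolynomial I 𝒪, HeckeImg.mk (MvPolynomial I 𝒪) (S.F 𝒪 (Reg G 𝒪) 𝔪) s ∈
        maximalIdeal (HeckeImg (MvPolynomial I 𝒪) (S.F 𝒪 (Reg G 𝒪) 𝔪)) ↔ s ∈ 𝔪) ∧
      (∀ t : HeckeImg (MvPolynomial I 𝒪) (S.F 𝒪 (Reg G 𝒪) 𝔪), ∃ a : 𝒪,
        t - algebraMap 𝒪 (HeckeImg (MvPolynomial I 𝒪) (S.F 𝒪 (Reg G 𝒪) 𝔪)) a ∈
          maximalIdeal (HeckeImg (MvPolynomial I 𝒪) (S.F 𝒪 (Reg G 𝒪) 𝔪))) ∧
      Finite (ResidueField (HeckeImg (MvPolynomial I 𝒪) (S.F 𝒪 (Reg G 𝒪) 𝔪))) := by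
  haveI := S.nontrivial_of_combo 𝔪 b hb hr
  obtain ⟨h1, h2, h3, h4, h5, h6, h7, h8⟩ :=
    heckeImg_package (𝒪 := 𝒪) (P := MvPolynomial I 𝒪) (N := S.F 𝒪 (Reg G 𝒪) 𝔪) 𝔪
      h𝔪.ne_top (fun s hs => S.bijective_smul_F (Reg G 𝒪) 𝔪 hs) hres
  exact ⟨h1, h2, h3, h4, h5, h6, h7, h8 inferInstance⟩

end HeckeSys

end Fermat.Agent.S43lib.B1
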